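import Fermat.Agent.S10.V.CyclotomicPID

set_option autoImplicit false

namespace Fermat.Agent.S10.V.CyclotomicPID

open NumberField Ideal Module Polynomial

theorem cert13_3 {R : Type*} [CommRing R] (z : R) (h : ∑ i ∈ Finset.range 13, z ^ i = 0) :
    ∏ k ∈ Finset.Ico 1 13, (1 + z ^ k - (z ^ k) ^ 3) = 27 := by
  simp only [Finset.sum_range_succ, Finset.sum_range_zero, Finset.prod_Ico_eq_prod_range,
    Finset.prod_range_succ, Finset.prod_range_zero] at h ⊢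
  norm_num at h ⊢
  linear_combination ((-26) + (27)*z + (1)*z^4 + (1)*z^7 + (1)*z^8 + (1)*z^9 + (-1)*z^10 + (2)*z^11 + (2)*z^12 + (-26)*z^13 + (27)*z^14 + (2)*z^16 + (1)*z^17 + (1)*z^19 + (2)*z^20 + (-1)*z^22 + (1)*z^24 + (1)*z^25 + (-30)*z^26 + (25)*z^27 + (1)*z^28 + (-2)*z^29 + (-3)*z^30 + (-3)*z^31 + (-1)*z^32 + (-4)*z^33 + (-6)*z^34 + (-2)*z^35 + (-1)*z^36 + (-5)*z^37 + (-6)*z^38 + (-32)*z^39 + (26)*z^40 + (-5)*z^41 + (-6)*z^42 + (-4)*z^43 + (-1)*z^44 + (-1)*z^45 + (-7)*z^46 + (-1)*z^47 + (5)*z^48 + (-1)*z^49 + (-5)*z^50 + (3)*z^51 + (-24)*z^52 + (32)*z^53 + (6)*z^55 + (11)*z^56 + (6)*z^57 + (3)*z^58 + (6)*z^59 + (12)*z^60 + (11)*z^61 + (4)*z^62 + (6)*z^63 + (16)*z^64 + (-22)*z^65 + (33)*z^66 + (10)*z^67 + (11)*z^68 + (2)*z^69 + (2)*z^70 + (3)*z^71 + (7)*z^72 + (1)*z^73 + (1)*z^74 + (-7)*z^75 + (1)*z^76 + (-45)*z^78 + (29)*z^79 + (-9)*z^80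 + (-7)*z^81 + (-17)*z^82 + (-7)*z^83 + (-3)*z^84 + (-16)*z^85 + (-18)*z^86 + (-8)*z^87 + (-10)*z^88 + (-10)*z^89 + (-10)*z^90 + (-46)*z^91 + (29)*z^92 + (-3)*z^93 + (-14)*z^94 + (-5)*z^95 + (7)*z^96 + (-5)*z^97 + (-4)*z^98 + (2)*z^99 + (10)*z^100 + (1)*z^101 + (9)*z^102 + (6)*z^103 + (-24)*z^104 + (42)*z^105 + (8)*z^106 + (9)*z^107 + (11)*z^108 + (15)*z^109 + (13)*z^110 + (7)*z^111 + (11)*z^112 + (10)*z^113 + (-1)*z^114 + (16)*z^115 + (3)*z^116 + (-36)*z^117 + (40)*z^118 + (5)*z^119 + (-1)*z^120 + (10)*z^121 + (-8)*z^122 + (-5)*z^123 + (-9)*z^124 + (-1)*z^125 + (-10)*z^126 + (-7)*z^127 + (-3)*z^128 + (-15)*z^129 + (-32)*z^130 + (25)*z^131 + (-4)*z^132 + (-8)*z^133 + (-8)*z^134 + (-10)*z^135 + (-9)*z^136 + (-2)*z^137 + (6)*z^138 + (-13)*z^139 + (1)*z^140 + (2)*z^141 + (-1)*z^142 + (-32)*z^143 + (41)*z^144 + (-11)*z^145 + (9)*z^146 + (11)*z^147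 + (-10)*z^148 + (9)*z^149 + (8)*z^150 + (8)*z^151 + (-11)*z^152 + (12)*z^153 + (7)*z^154 + (2)*z^155 + (-28)*z^156 + (32)*z^157 + (3)*z^158 + (5)*z^159 + (-3)*z^160 + (-1)*z^161 + (-3)*z^162 + (7)*z^163 + (-3)*z^164 + (-6)*z^165 + (5)*z^166 + (-1)*z^167 + (-9)*z^168 + (-16)*z^169 + (18)*z^170 + (-11)*z^171 + (10)*z^172 + (-8)*z^173 + (1)*z^174 + (-6)*z^175 + (6)*z^176 + (-7)*z^177 + (2)*z^178 + (-4)*z^181 + (-8)*z^182 + (12)*z^183 + (-4)*z^184 + (6)*z^185 + (-2)*z^186 + (2)*z^187 + (-1)*z^188 + (8)*z^189 + (-6)*z^190 + (3)*z^191 + (1)*z^192 + (1)*z^193 + (-6)*z^194 + (5)*z^196 + (-2)*z^197 + (1)*z^198 + (-2)*z^199 + (2)*z^200 + (1)*z^202 + (-3)*z^203 + (2)*z^204 + (-1)*z^205 + (1)*z^206 + (-4)*z^207 + (1)*z^209 + (-1)*z^210 + (1)*z^211 + (2)*z^215 + (-1)*z^216 + (1)*z^217 + (-1)*z^220 + (-1)*z^221 + (1)*z^222) * h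

theorem cert13_53 {R : Type*} [CommRing R] (z : R) (h : ∑ i ∈ Finset.range 13, z ^ i = 0) :
    ∏ k ∈ Finset.Ico 1 13, (1 + z ^ k + (z ^ k) ^ 3) = 53 := by
  simp only [Finset.sum_range_succ, Finset.sum_range_zero, Finset.prod_Ico_eq_prod_range,
    Finset.prod_range_succ, Finset.prod_range_zero] at h ⊢
  norm_num at h ⊢
  linear_combination ((-52) + (53)*z + (2)*z^3 + (-1)*z^4 + (2)*z^5 + (2)*z^6 + (1)*z^7 + (1)*z^8 + (5)*z^9 + (3)*z^10 + (2)*z^11 + (8)*z^12 + (-50)*z^13 + (61)*z^14 + (10)*z^15 + (8)*z^16 + (7)*z^17 + (20)*z^18 + (7)*z^19 + (18)*z^20 + (24)*z^21 + (17)*z^22 + (20)*z^23 + (33)*z^24 + (23)*z^25 + (-24)*z^26 + (101)*z^27 + (33)*z^28 + (38)*z^29 + (55)*z^30 + (49)*z^31 + (43)*z^32 + (84)*z^33 + (46)*z^34 + (74)*z^35 + (91)*z^36 + (71)*z^37 + (74)*z^38 + (72)*z^39 + (134)*z^40 + (101)*z^41 + (136)*z^42 + (102)*z^43 + (123)*z^44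 + (173)*z^45 + (117)*z^46 + (143)*z^47 + (205)*z^48 + (135)*z^49 + (167)*z^50 + (225)*z^51 + (124)*z^52 + (228)*z^53 + (282)*z^54 + (186)*z^55 + (221)*z^56 + (298)*z^57 + (223)*z^58 + (228)*z^59 + (342)*z^60 + (245)*z^61 + (262)*z^62 + (376)*z^63 + (266)*z^64 + (244)*z^65 + (485)*z^66 + (276)*z^67 + (327)*z^68 + (436)*z^69 + (322)*z^70 + (335)*z^71 + (485)*z^72 + (337)*z^73 + (369)*z^74 + (505)*z^75 + (353)*z^76 + (402)*z^77 + (521)*z^78 + (393)*z^79 + (413)*z^80 + (569)*z^81 + (383)*z^82 + (417)*z^83 + (605)*z^84 + (390)*z^85 + (430)*z^86 + (616)*z^87 + (406)*z^88 + (436)*z^89 + (646)*z^90 + (414)*z^91 + (433)*z^92 + (645)*z^93 + (416)*z^94 + (439)*z^95 + (625)*z^96 + (455)*z^97 + (400)*z^98 + (678)*z^99 + (392)*z^100 + (435)*z^101 + (627)*z^102 + (428)*z^103 + (408)*z^104 + (642)*z^105 + (378)*z^106 + (425)*z^107 + (587)*z^108 + (401)*z^109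 + (383)*z^110 + (595)*z^111 + (377)*z^112 + (382)*z^113 + (543)*z^114 + (386)*z^115 + (317)*z^116 + (566)*z^117 + (328)*z^118 + (341)*z^119 + (507)*z^120 + (324)*z^121 + (284)*z^122 + (507)*z^123 + (287)*z^124 + (287)*z^125 + (454)*z^126 + (267)*z^127 + (253)*z^128 + (425)*z^129 + (244)*z^130 + (237)*z^131 + (390)*z^132 + (236)*z^133 + (198)*z^134 + (350)*z^135 + (221)*z^136 + (174)*z^137 + (336)*z^138 + (179)*z^139 + (163)*z^140 + (288)*z^141 + (175)*z^142 + (124)*z^143 + (275)*z^144 + (131)*z^145 + (143)*z^146 + (211)*z^147 + (144)*z^148 + (79)*z^149 + (232)*z^150 + (92)*z^151 + (103)*z^152 + (162)*z^153 + (117)*z^154 + (50)*z^155 + (178)*z^156 + (56)*z^157 + (81)*z^158 + (115)*z^159 + (91)*z^160 + (25)*z^161 + (141)*z^162 + (31)*z^163 + (61)*z^164 + (74)*z^165 + (71)*z^166 + (5)*z^167 + (109)*z^168 + (14)*z^169 + (42)*z^170 + (49)*z^171 +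 (54)*z^172 + (-8)*z^173 + (83)*z^174 + (6)*z^175 + (30)*z^176 + (29)*z^177 + (36)*z^178 + (-10)*z^179 + (56)*z^180 + (-2)*z^181 + (22)*z^182 + (14)*z^183 + (28)*z^184 + (-10)*z^185 + (36)*z^186 + (-2)*z^187 + (15)*z^188 + (8)*z^189 + (18)*z^190 + (-13)*z^191 + (27)*z^192 + (-5)*z^193 + (8)*z^194 + (4)*z^195 + (11)*z^196 + (-8)*z^197 + (17)*z^198 + (-4)*z^199 + (4)*z^200 + (2)*z^201 + (7)*z^202 + (-5)*z^203 + (8)*z^204 + (-3)*z^205 + (3)*z^206 + (4)*z^208 + (-3)*z^209 + (5)*z^210 + (-1)*z^211 + (2)*z^214 + (-2)*z^215 + (3)*z^216 + (-1)*z^217 + (1)*z^220 + (-1)*z^221 + (1)*z^222) * h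

theorem cert13_79 {R : Type*} [CommRing R] (z : R) (h : ∑ i ∈ Finset.range 13, z ^ i = 0) :
    ∏ k ∈ Finset.Ico 1 13, (1 + z ^ k - (z ^ k) ^ 4) = 79 := by
  simp only [Finset.sum_range_succ, Finset.sum_range_zero, Finset.prod_Ico_eq_prod_range,
    Finset.prod_range_succ, Finset.prod_range_zero] at h ⊢
  norm_num at h ⊢
  linear_combination ((-78) + (79)*z + (1)*z^3 + (-1)*z^4 + (2)*z^5 + (1)*z^7 + (1)*z^9 + (3)*z^10 + (2)*z^12 + (-79)*z^13 + (82)*z^14 + (2)*z^15 + (2)*z^16 + (-1)*z^17 + (4)*z^18 + (-1)*z^19 + (6)*z^20 + (2)*z^22 + (1)*z^23 + (-2)*z^24 + (5)*z^25 + (-81)*z^26 + (82)*z^27 + (-2)*z^29 + (-3)*z^30 + (2)*z^31 + (-6)*z^32 + (5)*z^33 + (-14)*z^34 + (6)*z^35 + (-7)*z^36 + (-3)*z^37 + (-5)*z^38 + (-88)*z^39 + (79)*z^40 + (-6)*z^41 + (-12)*z^42 + (-8)*z^43 + (-4)*z^44 + (-1)*z^45 + (-3)*z^46 + (-16)*z^47 + (-16)*z^49 + (5)*z^50 + (-15)*z^51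 + (-77)*z^52 + (67)*z^53 + (2)*z^54 + (3)*z^55 + (-4)*z^56 + (-4)*z^57 + (1)*z^58 + (-6)*z^59 + (3)*z^60 + (2)*z^61 + (1)*z^62 + (8)*z^63 + (-7)*z^64 + (-53)*z^65 + (88)*z^66 + (7)*z^67 + (5)*z^68 + (-14)*z^69 + (31)*z^70 + (10)*z^71 + (7)*z^72 + (10)*z^73 + (6)*z^74 + (25)*z^75 + (8)*z^76 + (14)*z^77 + (-46)*z^78 + (64)*z^79 + (20)*z^80 + (5)*z^81 + (3)*z^82 + (28)*z^83 + (-16)*z^84 + (28)*z^85 + (-11)*z^86 + (8)*z^87 + (18)*z^88 + (-19)*z^89 + (17)*z^90 + (-49)*z^91 + (38)*z^92 + (19)*z^93 + (-60)*z^94 + (31)*z^95 + (-6)*z^96 + (-8)*z^97 + (-20)*z^98 + (-32)*z^99 + (16)*z^100 + (4)*z^101 + (-32)*z^102 + (-20)*z^103 + (-63)*z^104 + (47)*z^105 + (-14)*z^106 + (-42)*z^107 + (7)*z^108 + (-22)*z^109 + (-3)*z^110 + (-23)*z^111 + (-22)*z^112 + (6)*z^113 + (-9)*z^114 + (-9)*z^115 + (-11)*z^116 + (-46)*z^117 + (40)*z^118 + (-21)*z^119 + (3)*z^120 +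 (-6)*z^121 + (25)*z^122 + (-11)*z^123 + (-11)*z^124 + (-6)*z^125 + (29)*z^126 + (20)*z^127 + (5)*z^128 + (-26)*z^129 + (18)*z^130 + (25)*z^131 + (11)*z^132 + (-2)*z^133 + (11)*z^134 + (40)*z^135 + (13)*z^136 + (-11)*z^137 + (17)*z^138 + (12)*z^139 + (39)*z^140 + (-15)*z^141 + (17)*z^142 + (-10)*z^143 + (9)*z^144 + (26)*z^145 + (-2)*z^146 + (10)*z^147 + (10)*z^148 + (5)*z^149 + (-8)*z^150 + (-3)*z^151 + (15)*z^152 + (19)*z^153 + (-37)*z^154 + (16)*z^155 + (-30)*z^156 + (15)*z^157 + (-14)*z^158 + (-10)*z^160 + (10)*z^161 + (-2)*z^162 + (-30)*z^163 + (-12)*z^164 + (21)*z^165 + (-22)*z^166 + (-13)*z^167 + (-5)*z^168 + (-16)*z^169 + (-13)*z^170 + (3)*z^171 + (-9)*z^172 + (5)*z^173 + (-5)*z^174 + (6)*z^175 + (-31)*z^176 + (6)*z^177 + (8)*z^178 + (-4)*z^179 + (-9)*z^180 + (10)*z^181 + (-15)*z^182 + (-3)*z^183 + (9)*z^184 + (-4)*z^185 + (3)*z^186 +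 (20)*z^187 + (4)*z^188 + (-23)*z^189 + (14)*z^190 + (16)*z^191 + (-2)*z^192 + (-8)*z^193 + (24)*z^194 + (-22)*z^195 + (18)*z^196 + (-3)*z^197 + (6)*z^198 + (5)*z^199 + (18)*z^200 + (-8)*z^201 + (-6)*z^202 + (3)*z^203 + (22)*z^204 + (-15)*z^205 + (2)*z^206 + (11)*z^207 + (-20)*z^208 + (11)*z^209 + (5)*z^210 + (-10)*z^211 + (5)*z^212 + (8)*z^213 + (1)*z^214 + (-21)*z^215 + (10)*z^216 + (4)*z^217 + (-4)*z^218 + (-1)*z^219 + (1)*z^220 + (-14)*z^221 + (3)*z^222 + (-6)*z^224 + (4)*z^225 + (6)*z^226 + (-6)*z^227 + (-10)*z^228 + (9)*z^229 + (-4)*z^230 + (1)*z^231 + (-5)*z^232 + (9)*z^233 + (-13)*z^234 + (5)*z^235 + (-1)*z^236 + (-3)*z^237 + (3)*z^238 + (10)*z^239 + (-11)*z^240 + (1)*z^241 + (1)*z^242 + (3)*z^243 + (2)*z^244 + (-3)*z^245 + (2)*z^246 + (-6)*z^247 + (6)*z^248 + (2)*z^249 + (-5)*z^250 + (6)*z^251 + (2)*z^252 + (-4)*z^253 + (1)*z^254 + (1)*z^255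 + (2)*z^256 + (-1)*z^257 + (-1)*z^258 + (2)*z^259 + (-5)*z^260 + (3)*z^261 + (-2)*z^263 + (5)*z^264 + (-1)*z^265 + (-2)*z^266 + (1)*z^268 + (-2)*z^271 + (1)*z^272 + (-3)*z^273 + (3)*z^274 + (-2)*z^275 + (1)*z^277 + (2)*z^278 + (-3)*z^279 + (1)*z^280 + (-1)*z^281 + (1)*z^282 + (-2)*z^284 + (2)*z^285 + (-2)*z^286 + (2)*z^287 + (-1)*z^288 + (1)*z^290 + (1)*z^291 + (-1)*z^292 + (1)*z^293 + (-1)*z^294 + (1)*z^295 + (-1)*z^297 + (-1)*z^299 + (1)*z^300) * h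

theorem cert13_131 {R : Type*} [CommRing R] (z : R) (h : ∑ i ∈ Finset.range 13, z ^ i = 0) :
    ∏ k ∈ Finset.Ico 1 13, (1 - z ^ k - (z ^ k) ^ 3) = 131 := by
  simp only [Finset.sum_range_succ, Finset.sum_range_zero, Finset.prod_Ico_eq_prod_range,
    Finset.prod_range_succ, Finset.prod_range_zero] at h ⊢
  norm_num at h ⊢
  linear_combination ((-130) + (129)*z + (1)*z^4 + (2)*z^5 + (-2)*z^6 + (3)*z^7 + (-3)*z^8 + (1)*z^9 + (-1)*z^10 + (-4)*z^12 + (-126)*z^13 + (127)*z^14 + (-2)*z^15 + (1)*z^17 + (8)*z^18 + (-5)*z^19 + (8)*z^20 + (-2)*z^21 + (7)*z^22 + (-6)*z^23 + (5)*z^24 + (-17)*z^25 + (-114)*z^26 + (117)*z^27 + (-5)*z^28 + (-10)*z^29 + (3)*z^30 + (5)*z^31 + (-3)*z^32 + (10)*z^33 + (-4)*z^34 + (8)*z^35 + (9)*z^36 + (11)*z^37 + (-20)*z^38 + (-98)*z^39 + (100)*z^40 + (13)*z^41 + (-32)*z^42 + (20)*z^43 + (-9)*z^44 + (-5)*z^45 + (1)*z^46 + (1)*z^47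 + (-13)*z^48 + (25)*z^49 + (-5)*z^50 + (-1)*z^51 + (-88)*z^52 + (88)*z^53 + (-6)*z^54 + (-12)*z^55 + (25)*z^56 + (2)*z^57 + (-13)*z^58 + (8)*z^59 + (-6)*z^60 + (-7)*z^61 + (20)*z^62 + (-26)*z^63 + (30)*z^64 + (-72)*z^65 + (67)*z^66 + (-22)*z^67 + (-13)*z^68 + (16)*z^69 + (6)*z^70 + (-21)*z^71 + (25)*z^72 + (-17)*z^73 + (7)*z^74 + (37)*z^75 + (-61)*z^76 + (-6)*z^77 + (39)*z^78 + (-7)*z^79 + (31)*z^80 + (-61)*z^81 + (55)*z^82 + (-17)*z^83 + (-1)*z^84 + (-14)*z^85 + (2)*z^86 + (-32)*z^87 + (72)*z^88 + (-58)*z^89 + (20)*z^90 + (6)*z^91 + (-9)*z^92 + (13)*z^93 + (-30)*z^94 + (47)*z^95 + (-23)*z^96 + (7)*z^97 + (-4)*z^98 + (-22)*z^99 + (10)*z^100 + (23)*z^101 + (-27)*z^102 + (24)*z^103 + (-28)*z^106 + (11)*z^107 + (-9)*z^108 + (31)*z^109 + (-21)*z^110 + (1)*z^111 + (-27)*z^112 + (54)*z^113 + (-35)*z^114 + (32)*z^115 + (-51)*z^116 + (64)*z^117 + (-54)*z^118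 + (31)*z^119 + (-21)*z^120 + (8)*z^121 + (-20)*z^122 + (51)*z^123 + (-57)*z^124 + (43)*z^125 + (-34)*z^126 + (25)*z^127 + (-17)*z^128 + (23)*z^129 + (-8)*z^130 + (-13)*z^131 + (-12)*z^132 + (38)*z^133 + (-42)*z^134 + (42)*z^135 + (-25)*z^136 + (2)*z^137 + (4)*z^138 + (7)*z^139 + (-5)*z^140 + (-10)*z^141 + (11)*z^142 + (10)*z^143 + (-19)*z^144 + (3)*z^145 + (7)*z^146 + (-13)*z^147 + (20)*z^148 + (-15)*z^149 + (12)*z^150 + (-22)*z^151 + (31)*z^152 + (-26)*z^153 + (23)*z^154 + (-12)*z^155 + (10)*z^156 + (-26)*z^157 + (31)*z^158 + (-33)*z^159 + (37)*z^160 + (-41)*z^161 + (41)*z^162 + (-35)*z^163 + (33)*z^164 + (-28)*z^165 + (19)*z^166 + (-25)*z^167 + (41)*z^168 + (-38)*z^169 + (34)*z^170 + (-41)*z^171 + (34)*z^172 + (-30)*z^173 + (33)*z^174 + (-30)*z^175 + (24)*z^176 + (-25)*z^177 + (34)*z^178 + (-38)*z^179 + (34)*z^180 + (-30)*z^181 + (26)*z^182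 + (-24)*z^183 + (22)*z^184 + (-22)*z^185 + (20)*z^186 + (-18)*z^187 + (21)*z^188 + (-22)*z^189 + (20)*z^190 + (-19)*z^191 + (17)*z^192 + (-15)*z^193 + (16)*z^194 + (-16)*z^195 + (11)*z^196 + (-10)*z^197 + (11)*z^198 + (-10)*z^199 + (12)*z^200 + (-12)*z^201 + (9)*z^202 + (-7)*z^203 + (6)*z^204 + (-5)*z^205 + (3)*z^206 + (-2)*z^207 + (4)*z^208 + (-5)*z^209 + (5)*z^210 + (-5)*z^211 + (4)*z^212 + (-2)*z^213 + (2)*z^214 + (-2)*z^215 + (1)*z^216 + (-1)*z^217 + (2)*z^218 + (-2)*z^219 + (1)*z^220 + (-1)*z^221 + (1)*z^222) * h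

theorem cert13_157 {R : Type*} [CommRing R] (z : R) (h : ∑ i ∈ Finset.range 13, z ^ i = 0) :
    ∏ k ∈ Finset.Ico 1 13, (1 - z ^ k + (z ^ k) ^ 2 + (z ^ k) ^ 4) = 157 := by
  simp only [Finset.sum_range_succ, Finset.sum_range_zero, Finset.prod_Ico_eq_prod_range,
    Finset.prod_range_succ, Finset.prod_range_zero] at h ⊢
  norm_num at h ⊢
  linear_combination ((-156) + (155)*z + (1)*z^2 + (1)*z^4 + (-2)*z^5 + (1)*z^6 + (-2)*z^7 + (4)*z^8 + (-3)*z^9 + (3)*z^10 + (-4)*z^11 + (6)*z^12 + (-163)*z^13 + (159)*z^14 + (-2)*z^15 + (5)*z^16 + (-6)*z^17 + (6)*z^18 + (-7)*z^19 + (10)*z^20 + (-12)*z^21 + (10)*z^22 + (-9)*z^23 + (15)*z^24 + (-15)*z^25 + (-148)*z^26 + (141)*z^27 + (24)*z^28 + (-25)*z^29 + (24)*z^30 + (-27)*z^31 + (33)*z^32 + (-25)*z^33 + (20)*z^34 + (-25)*z^35 + (37)*z^36 + (-39)*z^37 + (34)*z^38 + (-199)*z^39 + (204)*z^40 + (-54)*z^41 + (45)*z^42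 + (-47)*z^43 + (62)*z^44 + (-63)*z^45 + (62)*z^46 + (-71)*z^47 + (104)*z^48 + (-93)*z^49 + (82)*z^50 + (-99)*z^51 + (-40)*z^52 + (42)*z^53 + (95)*z^54 + (-118)*z^55 + (137)*z^56 + (-146)*z^57 + (132)*z^58 + (-150)*z^59 + (178)*z^60 + (-169)*z^61 + (165)*z^62 + (-158)*z^63 + (196)*z^64 + (-354)*z^65 + (345)*z^66 + (-219)*z^67 + (268)*z^68 + (-256)*z^69 + (237)*z^70 + (-293)*z^71 + (317)*z^72 + (-316)*z^73 + (281)*z^74 + (-323)*z^75 + (384)*z^76 + (-371)*z^77 + (200)*z^78 + (-243)*z^79 + (462)*z^80 + (-444)*z^81 + (432)*z^82 + (-435)*z^83 + (497)*z^84 + (-484)*z^85 + (450)*z^86 + (-534)*z^87 + (619)*z^88 + (-611)*z^89 + (578)*z^90 + (-819)*z^91 + (856)*z^92 + (-653)*z^93 + (627)*z^94 + (-713)*z^95 + (807)*z^96 + (-794)*z^97 + (798)*z^98 + (-850)*z^99 + (908)*z^100 + (-870)*z^101 + (837)*z^102 + (-864)*z^103 + (786)*z^104 + (-834)*z^105 + (974)*z^106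 + (-1033)*z^107 + (1142)*z^108 + (-1115)*z^109 + (1067)*z^110 + (-1174)*z^111 + (1252)*z^112 + (-1189)*z^113 + (1167)*z^114 + (-1295)*z^115 + (1422)*z^116 + (-1542)*z^117 + (1475)*z^118 + (-1445)*z^119 + (1570)*z^120 + (-1492)*z^121 + (1433)*z^122 + (-1488)*z^123 + (1593)*z^124 + (-1587)*z^125 + (1546)*z^126 + (-1650)*z^127 + (1788)*z^128 + (-1708)*z^129 + (1530)*z^130 + (-1690)*z^131 + (1871)*z^132 + (-1780)*z^133 + (1787)*z^134 + (-1950)*z^135 + (2046)*z^136 + (-1976)*z^137 + (1975)*z^138 + (-2096)*z^139 + (2142)*z^140 + (-2096)*z^141 + (2082)*z^142 + (-2170)*z^143 + (2227)*z^144 + (-2125)*z^145 + (2092)*z^146 + (-2168)*z^147 + (2271)*z^148 + (-2248)*z^149 + (2182)*z^150 + (-2239)*z^151 + (2297)*z^152 + (-2201)*z^153 + (2166)*z^154 + (-2340)*z^155 + (2409)*z^156 + (-2344)*z^157 + (2421)*z^158 + (-2516)*z^159 + (2518)*z^160 + (-2406)*z^161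 + (2328)*z^162 + (-2360)*z^163 + (2447)*z^164 + (-2462)*z^165 + (2416)*z^166 + (-2443)*z^167 + (2526)*z^168 + (-2473)*z^169 + (2385)*z^170 + (-2362)*z^171 + (2377)*z^172 + (-2318)*z^173 + (2294)*z^174 + (-2404)*z^175 + (2462)*z^176 + (-2366)*z^177 + (2326)*z^178 + (-2378)*z^179 + (2394)*z^180 + (-2311)*z^181 + (2254)*z^182 + (-2236)*z^183 + (2280)*z^184 + (-2266)*z^185 + (2210)*z^186 + (-2205)*z^187 + (2201)*z^188 + (-2128)*z^189 + (2080)*z^190 + (-2078)*z^191 + (2084)*z^192 + (-1981)*z^193 + (1885)*z^194 + (-1907)*z^195 + (1953)*z^196 + (-1898)*z^197 + (1858)*z^198 + (-1853)*z^199 + (1821)*z^200 + (-1756)*z^201 + (1725)*z^202 + (-1665)*z^203 + (1626)*z^204 + (-1603)*z^205 + (1576)*z^206 + (-1567)*z^207 + (1578)*z^208 + (-1487)*z^209 + (1378)*z^210 + (-1349)*z^211 + (1361)*z^212 + (-1296)*z^213 + (1221)*z^214 + (-1199)*z^215 + (1210)*z^216 +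 (-1168)*z^217 + (1126)*z^218 + (-1107)*z^219 + (1069)*z^220 + (-986)*z^221 + (957)*z^222 + (-947)*z^223 + (933)*z^224 + (-881)*z^225 + (832)*z^226 + (-810)*z^227 + (806)*z^228 + (-766)*z^229 + (713)*z^230 + (-675)*z^231 + (660)*z^232 + (-616)*z^233 + (583)*z^234 + (-562)*z^235 + (544)*z^236 + (-501)*z^237 + (486)*z^238 + (-488)*z^239 + (470)*z^240 + (-415)*z^241 + (380)*z^242 + (-365)*z^243 + (354)*z^244 + (-338)*z^245 + (327)*z^246 + (-301)*z^247 + (296)*z^248 + (-279)*z^249 + (252)*z^250 + (-234)*z^251 + (223)*z^252 + (-196)*z^253 + (181)*z^254 + (-178)*z^255 + (177)*z^256 + (-158)*z^257 + (142)*z^258 + (-133)*z^259 + (131)*z^260 + (-114)*z^261 + (100)*z^262 + (-90)*z^263 + (87)*z^264 + (-83)*z^265 + (80)*z^266 + (-73)*z^267 + (70)*z^268 + (-60)*z^269 + (52)*z^270 + (-49)*z^271 + (50)*z^272 + (-40)*z^273 + (31)*z^274 + (-30)*z^275 + (32)*z^276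 + (-26)*z^277 + (22)*z^278 + (-21)*z^279 + (22)*z^280 + (-17)*z^281 + (14)*z^282 + (-12)*z^283 + (9)*z^284 + (-7)*z^285 + (9)*z^286 + (-9)*z^287 + (9)*z^288 + (-7)*z^289 + (5)*z^290 + (-4)*z^291 + (4)*z^292 + (-2)*z^293 + (1)*z^294 + (-2)*z^295 + (3)*z^296 + (-2)*z^297 + (1)*z^298 + (-1)*z^299 + (1)*z^300) * h

section
variable (K : Type*) [Field K] [NumberField K] [IsCyclotomicExtension {13} ℚ K]

instance fact_prime_13 : Fact (Nat.Prime 13) := ⟨by norm_num⟩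

theorem exists_norm13_3 :
    ∃ α : 𝓞 K, (Algebra.norm ℤ α).natAbs = 3 ^ orderOf ((3 : ℕ) : ZMod 13) := by
  have hζ := IsCyclotomicExtension.zeta_spec 13 ℚ K
  have ho : orderOf ((3 : ℕ) : ZMod 13) = 3 := by
    have : Fact (Nat.Prime 3) := ⟨by norm_num⟩
    exact orderOf_eq_prime (by decide) (by decide)
  refine ⟨aeval hζ.toInteger (1 + X - X ^ 3 : ℤ[X]), ?_⟩
  rw [norm_aeval_eq_of_prod_eq 13 K hζ _ 27 ?_, ho]
  · norm_num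
  · simpa using cert13_3 hζ.toInteger (sum_toInteger_pow_eq_zero 13 K hζ)

theorem exists_norm13_53 :
    ∃ α : 𝓞 K, (Algebra.norm ℤ α).natAbs = 53 ^ orderOf ((53 : ℕ) : ZMod 13) := by
  have hζ := IsCyclotomicExtension.zeta_spec 13 ℚ K
  have ho : orderOf ((53 : ℕ) : ZMod 13) = 1 := by
    rw [show ((53 : ℕ) : ZMod 13) = 1 from by decide]; exact orderOf_one
  refine ⟨aeval hζ.toInteger (1 + X + X ^ 3 : ℤ[X]), ?_⟩
  rw [norm_aeval_eq_of_prod_eq 13 K hζ _ 53 ?_, ho]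
  · norm_num
  · simpa using cert13_53 hζ.toInteger (sum_toInteger_pow_eq_zero 13 K hζ)

theorem exists_norm13_79 :
    ∃ α : 𝓞 K, (Algebra.norm ℤ α).natAbs = 79 ^ orderOf ((79 : ℕ) : ZMod 13) := by
  have hζ := IsCyclotomicExtension.zeta_spec 13 ℚ K
  have ho : orderOf ((79 : ℕ) : ZMod 13) = 1 := by
    rw [show ((79 : ℕ) : ZMod 13) = 1 from by decide]; exact orderOf_one
  refine ⟨aeval hζ.toInteger (1 + X - X ^ 4 : ℤ[X]), ?_⟩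
  rw [norm_aeval_eq_of_prod_eq 13 K hζ _ 79 ?_, ho]
  · norm_num
  · simpa using cert13_79 hζ.toInteger (sum_toInteger_pow_eq_zero 13 K hζ)

theorem exists_norm13_131 :
    ∃ α : 𝓞 K, (Algebra.norm ℤ α).natAbs = 131 ^ orderOf ((131 : ℕ) : ZMod 13) := by
  have hζ := IsCyclotomicExtension.zeta_spec 13 ℚ K
  have ho : orderOf ((131 : ℕ) : ZMod 13) = 1 := by
    rw [show ((131 : ℕ) : ZMod 13) = 1 from by decide]; exact orderOf_one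
  refine ⟨aeval hζ.toInteger (1 - X - X ^ 3 : ℤ[X]), ?_⟩
  rw [norm_aeval_eq_of_prod_eq 13 K hζ _ 131 ?_, ho]
  · norm_num
  · simpa using cert13_131 hζ.toInteger (sum_toInteger_pow_eq_zero 13 K hζ)

theorem exists_norm13_157 :
    ∃ α : 𝓞 K, (Algebra.norm ℤ α).natAbs = 157 ^ orderOf ((157 : ℕ) : ZMod 13) := by
  have hζ := IsCyclotomicExtension.zeta_spec 13 ℚ K
  have ho : orderOf ((157 : ℕ) : ZMod 13) = 1 := by
    rw [show ((157 : ℕ) : ZMod 13) = 1 from by decide]; exact orderOf_one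
  refine ⟨aeval hζ.toInteger (1 - X + X ^ 2 + X ^ 4 : ℤ[X]), ?_⟩
  rw [norm_aeval_eq_of_prod_eq 13 K hζ _ 157 ?_, ho]
  · norm_num
  · simpa using cert13_157 hζ.toInteger (sum_toInteger_pow_eq_zero 13 K hζ)

set_option maxRecDepth 100000 in
theorem chk13 : ∀ ℓ < 312 + 1, ∀ n < 9, chk 13 312 [2, 3, 5, 7, 11, 13, 17] [3, 53, 79, 131, 157] ℓ n = true := by
  decide

open scoped Real Nat in
theorem minkowski13 : (4 / π) ^ InfinitePlace.nrComplexPlaces K *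
      ((finrank ℚ K)! / (finrank ℚ K) ^ (finrank ℚ K) * √|discr K|) < (312 : ℕ) + 1 := by
  rw [IsCyclotomicExtension.Rat.discr_prime 13 K, IsCyclotomicExtension.finrank (n := 13) K
    (cyclotomic.irreducible_rat (by simp)),
    IsCyclotomicExtension.Rat.nrComplexPlaces_eq_totient_div_two 13,
    Nat.totient_prime (by norm_num)]
  have h1 : (4 / π) ^ 6 < (4 / 3.14) ^ 6 := by
    gcongr
    exact Real.pi_gt_d2
  have h2 : √(1792160394037 : ℝ) < 13 ^ 5 * 3.606 := by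
    rw [Real.sqrt_lt' (by positivity)]
    norm_num
  have h3 : (12 ! : ℝ) = 479001600 := by
    norm_num [Nat.factorial]
  norm_num [h3]
  calc (4 / π) ^ 6 * (1925 / 35831808 * √1792160394037)
      < (4 / 3.14) ^ 6 * (1925 / 35831808 * (13 ^ 5 * 3.606)) := by gcongr
    _ < 313 := by norm_num

theorem thirteen_pid : IsPrincipalIdealRing (𝓞 K) := by
  refine pid_of_certificates 13 K 312 (minkowski13 K) fun ℓ hℓB hℓ hℓp => ?_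
  by_cases hsp : ℓ ∈ [3, 53, 79, 131, 157]
  · right
    simp only [List.mem_cons, List.not_mem_nil, or_false] at hsp

    rcases hsp with rfl | rfl | rfl | rfl | rfl
    · exact exists_norm13_3 K
    · exact exists_norm13_53 K
    · exact exists_norm13_79 K
    · exact exists_norm13_131 K
    · exact exists_norm13_157 K
  · exact Or.inl (lt_pow_orderOf_of_chk 13 312 9 [2, 3, 5, 7, 11, 13, 17] [3, 53, 79, 131, 157] (by norm_num) (by norm_num)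
      (by simp) chk13 ℓ hℓB hℓ hℓp hsp)

end

end Fermat.Agent.S10.V.CyclotomicPID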