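import Fermat.Prelude.Def_FLTPrelim_FreyPackage

set_option autoImplicit false

namespace Fermat.Agent.S10.V.FreyGlue

theorem isCoprime_of_gcd_eq_one {a b : ℤ} (h : gcd a b = 1) : IsCoprime a b := by
  rw [Int.isCoprime_iff_gcd_eq_one]
  have h' : ((Int.gcd a b : ℕ) : ℤ) = 1 := h
  exact_mod_cast h'

/-- A Frey package with exponent `p` cannot exist once both cases of Fermat's Last Theorem for
exponent `p` (for coprime integers) are known. -/
theorem false_of_cases (P : FreyPackage)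
    (caseI : ∀ a b c : ℤ, IsCoprime a b → ¬ (P.p : ℤ) ∣ a * b * c →
      a ^ P.p + b ^ P.p = c ^ P.p → False)
    (caseII : ∀ a b c : ℤ, a * b * c ≠ 0 → IsCoprime a b → (P.p : ℤ) ∣ c →
      a ^ P.p + b ^ P.p ≠ c ^ P.p) : False := by
  have hab : IsCoprime P.a P.b := isCoprime_of_gcd_eq_one P.hgcdab
  have hac : IsCoprime P.a P.c := isCoprime_of_gcd_eq_one P.hgcdac
  have hbc : IsCoprime P.b P.c := isCoprime_of_gcd_eq_one P.hgcdbc
  have hodd : Odd P.p := P.hp_odd
  have hprime : Prime (P.p : ℤ) := Nat.prime_iff_prime_int.1 P.pp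
  by_cases hdvd : (P.p : ℤ) ∣ P.a * P.b * P.c
  · rcases hprime.dvd_or_dvd hdvd with h | h
    · rcases hprime.dvd_or_dvd h with h | h
      · refine caseII P.c (-P.b) P.a ?_ hbc.symm.neg_right h ?_
        · exact mul_ne_zero (mul_ne_zero P.hc0 (neg_ne_zero.2 P.hb0)) P.ha0
        · rw [hodd.neg_pow, ← P.hFLT]; ring
      · refine caseII P.c (-P.a) P.b ?_ hac.symm.neg_right h ?_
        · exact mul_ne_zero (mul_ne_zero P.hc0 (neg_ne_zero.2 P.ha0)) P.hb0
        · rw [hodd.neg_pow, ← P.hFLT]; ring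
    · exact caseII P.a P.b P.c P.habc0 hab h P.hFLT
  · exact caseI P.a P.b P.c hab hdvd P.hFLT

end Fermat.Agent.S10.V.FreyGlue
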