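import Mathlib.NumberTheory.Multiplicity
import Mathlib.RingTheory.Int.Basic
import Mathlib.RingTheory.PrincipalIdealDomain
import Mathlib.Data.ZMod.Basic
import Mathlib.Algebra.Field.ZMod
import Mathlib.Tactic

set_option autoImplicit false

namespace Fermat.Agent.S10.V.SophieGermain

open Finset

/-- The cofactor `(y ^ p + z ^ p) / (y + z)`. -/
def cof (p : ℕ) (y z : ℤ) : ℤ := ∑ i ∈ range p, y ^ i * (-z) ^ (p - 1 - i)

lemma cof_mul {p : ℕ} (hp : Odd p) (y z : ℤ) : (y + z) * cof p y z = y ^ p + z ^ p := by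
  have h := geom_sum₂_mul y (-z) p
  rw [hp.neg_pow] at h
  rw [cof, mul_comm]
  linarith [h]

lemma isCoprime_add_cof {p : ℕ} (hp : p.Prime) (y z : ℤ) (hyz : IsCoprime y z)
    (hpyz : ¬ (p : ℤ) ∣ y + z) : IsCoprime (y + z) (cof p y z) := by
  refine isCoprime_of_prime_dvd ?_ ?_
  · rintro ⟨h0, -⟩
    exact hpyz (h0 ▸ dvd_zero _)
  · intro r hr hr1 hr2
    have h1 : r ∣ y - (-z) := by simpa using hr1
    have h2 : r ∣ (p : ℤ) * y ^ (p - 1) := (dvd_geom_sum₂_iff_of_dvd_sub' h1).mp hr2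
    rcases hr.dvd_or_dvd h2 with h3 | h3
    · have hpp : Prime (p : ℤ) := Nat.prime_iff_prime_int.mp hp
      have : Associated r (p : ℤ) := hr.associated_of_dvd hpp h3
      exact hpyz (this.symm.dvd.trans hr1)
    · have h4 : r ∣ y := hr.dvd_of_dvd_pow h3
      have h5 : r ∣ z := by
        have := dvd_sub hr1 h4
        simpa using this
      exact hr.not_isUnit (hyz.isUnit_of_dvd' h4 h5)

lemma exists_pow {p : ℕ} (hp : p.Prime) (hp2 : p ≠ 2) (x y z : ℤ) (hyz : IsCoprime y z)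
    (hpx : ¬ (p : ℤ) ∣ x) (h : x ^ p + y ^ p + z ^ p = 0) :
    ∃ A α : ℤ, y + z = A ^ p ∧ cof p y z = α ^ p := by
  have hodd : Odd p := hp.odd_of_ne_two hp2
  have hmul : (y + z) * cof p y z = (-x) ^ p := by
    rw [cof_mul hodd, hodd.neg_pow]; linarith
  have hpyz : ¬ (p : ℤ) ∣ y + z := by
    intro hd
    have h1 : (p : ℤ) ∣ (-x) ^ p := hmul ▸ Dvd.dvd.mul_right hd _
    have hpp : Prime (p : ℤ) := Nat.prime_iff_prime_int.mp hp
    exact hpx ((dvd_neg).mp (hpp.dvd_of_dvd_pow h1))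
  obtain ⟨⟨A, hA⟩, ⟨α, hα⟩⟩ :=
    Int.eq_pow_of_mul_eq_pow_odd (isCoprime_add_cof hp y z hyz hpyz) hodd hmul
  exact ⟨A, α, hA, hα⟩

lemma cast_cof (q p : ℕ) (y z : ℤ) :
    ((cof p y z : ℤ) : ZMod q) = ∑ i ∈ range p, (y : ZMod q) ^ i * (-(z : ZMod q)) ^ (p - 1 - i) := by
  simp [cof]

lemma cast_cof_of_add_eq_zero (q p : ℕ) (y z : ℤ) (h : ((y + z : ℤ) : ZMod q) = 0) :
    ((cof p y z : ℤ) : ZMod q) = (p : ZMod q) * (y : ZMod q) ^ (p - 1) := by
  have hz : -(z : ZMod q) = (y : ZMod q) := by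
    push_cast at h
    exact (eq_neg_of_add_eq_zero_left h).symm
  rw [cast_cof, hz, geom_sum₂_self]

lemma cast_cof_of_right_eq_zero (q p : ℕ) (hp : 0 < p) (y z : ℤ) (h : ((z : ℤ) : ZMod q) = 0) :
    ((cof p y z : ℤ) : ZMod q) = (y : ZMod q) ^ (p - 1) := by
  rw [cast_cof, h, neg_zero]
  rw [Finset.sum_eq_single (p - 1)]
  · simp
  · intro i hi hne
    have hi' : i < p := Finset.mem_range.mp hi
    have : p - 1 - i ≠ 0 := by omega
    rw [zero_pow this, mul_zero]
  · intro hn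
    exact absurd (Finset.mem_range.mpr (by omega)) hn

/-- The core step: under the two Sophie Germain conditions the auxiliary prime cannot divide `x`. -/
lemma core {p q : ℕ} (hp : p.Prime) (hp2 : p ≠ 2) (hq : q.Prime)
    (h1 : ∀ x y z : ZMod q, x ^ p + y ^ p + z ^ p = 0 → x = 0 ∨ y = 0 ∨ z = 0)
    (h2 : ∀ x : ZMod q, x ^ p ≠ (p : ZMod q))
    (x y z : ℤ) (hxy : IsCoprime x y) (hyz : IsCoprime y z) (hzx : IsCoprime z x)
    (hpx : ¬ (p : ℤ) ∣ x) (hpy : ¬ (p : ℤ) ∣ y) (hpz : ¬ (p : ℤ) ∣ z)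
    (h : x ^ p + y ^ p + z ^ p = 0) (hqx : ((x : ℤ) : ZMod q) = 0) : False := by
  have : Fact q.Prime := ⟨hq⟩
  have hodd : Odd p := hp.odd_of_ne_two hp2
  have hqq : Prime (q : ℤ) := Nat.prime_iff_prime_int.mp hq
  have hqx' : (q : ℤ) ∣ x := (ZMod.intCast_zmod_eq_zero_iff_dvd x q).mp hqx
  have hy0 : ((y : ℤ) : ZMod q) ≠ 0 := by
    intro hy
    have hqy' : (q : ℤ) ∣ y := (ZMod.intCast_zmod_eq_zero_iff_dvd y q).mp hy
    exact hqq.not_isUnit (hxy.isUnit_of_dvd' hqx' hqy')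
  have hz0 : ((z : ℤ) : ZMod q) ≠ 0 := by
    intro hz
    have hqz' : (q : ℤ) ∣ z := (ZMod.intCast_zmod_eq_zero_iff_dvd z q).mp hz
    exact hqq.not_isUnit (hzx.isUnit_of_dvd' hqz' hqx')
  obtain ⟨A, α, hA, hα⟩ := exists_pow hp hp2 x y z hyz hpx h
  obtain ⟨B, β, hB, hβ⟩ := exists_pow hp hp2 y z x hzx hpy (by linarith)
  obtain ⟨C, γ, hC, -⟩ := exists_pow hp hp2 z x y hxy hpz (by linarith)
  have hsum : ((B : ℤ) : ZMod q) ^ p + ((C : ℤ) : ZMod q) ^ p + ((-A : ℤ) : ZMod q) ^ p = 0 := by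
    have e : B ^ p + C ^ p + (-A) ^ p = 2 * x := by
      rw [hodd.neg_pow, ← hA, ← hB, ← hC]; ring
    have := congrArg (fun t : ℤ => (t : ZMod q)) e
    push_cast at this
    rw [hqx, mul_zero] at this
    push_cast
    exact this
  rcases h1 _ _ _ hsum with hB0 | hC0 | hA0
  · have : ((z + x : ℤ) : ZMod q) = 0 := by
      rw [hB]; push_cast; rw [hB0, zero_pow hp.ne_zero]
    push_cast at this
    rw [hqx, add_zero] at this
    exact hz0 this
  · have : ((x + y : ℤ) : ZMod q) = 0 := by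
      rw [hC]; push_cast; rw [hC0, zero_pow hp.ne_zero]
    push_cast at this
    rw [hqx, zero_add] at this
    exact hy0 this
  · have hA0' : ((A : ℤ) : ZMod q) = 0 := by
      push_cast at hA0
      exact neg_eq_zero.mp hA0
    have hyz0 : ((y + z : ℤ) : ZMod q) = 0 := by
      rw [hA]; push_cast; rw [hA0', zero_pow hp.ne_zero]
    have e1 : ((α : ℤ) : ZMod q) ^ p = (p : ZMod q) * (y : ZMod q) ^ (p - 1) := by
      rw [← cast_cof_of_add_eq_zero q p y z hyz0, hα]; push_cast; rfl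
    have e2 : ((β : ℤ) : ZMod q) ^ p = (z : ZMod q) ^ (p - 1) := by
      rw [← cast_cof_of_right_eq_zero q p hp.pos z x hqx, hβ]; push_cast; rfl
    have heven : Even (p - 1) := by
      obtain ⟨k, hk⟩ := hodd
      exact ⟨k, by omega⟩
    have e3 : (z : ZMod q) ^ (p - 1) = (y : ZMod q) ^ (p - 1) := by
      have hz : (z : ZMod q) = -(y : ZMod q) := by
        push_cast at hyz0
        exact eq_neg_of_add_eq_zero_right hyz0
      rw [hz, heven.neg_pow]
    have hβ0 : ((β : ℤ) : ZMod q) ^ p ≠ 0 := by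
      rw [e2, e3]; exact pow_ne_zero _ hy0
    apply h2 (((α : ℤ) : ZMod q) / ((β : ℤ) : ZMod q))
    rw [div_pow, e1, e2, e3]
    rw [e2, e3] at hβ0
    field_simp

/-- Sophie Germain's theorem (Legendre's form): the first case of Fermat's Last Theorem for `p`
follows from the existence of an auxiliary prime `q`. -/
theorem caseI_of_aux {p q : ℕ} (hp : p.Prime) (hp2 : p ≠ 2) (hq : q.Prime)
    (h1 : ∀ x y z : ZMod q, x ^ p + y ^ p + z ^ p = 0 → x = 0 ∨ y = 0 ∨ z = 0)
    (h2 : ∀ x : ZMod q, x ^ p ≠ (p : ZMod q))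
    (a b c : ℤ) (hab : IsCoprime a b) (hpabc : ¬ (p : ℤ) ∣ a * b * c)
    (h : a ^ p + b ^ p = c ^ p) : False := by
  have hodd : Odd p := hp.odd_of_ne_two hp2
  have hpa : ¬ (p : ℤ) ∣ a := fun hd => hpabc ((hd.mul_right b).mul_right c)
  have hpb : ¬ (p : ℤ) ∣ b := fun hd => hpabc ((hd.mul_left a).mul_right c)
  have hpc : ¬ (p : ℤ) ∣ -c := fun hd => hpabc ((dvd_neg.mp hd).mul_left (a * b))
  have h0 : a ^ p + b ^ p + (-c) ^ p = 0 := by rw [hodd.neg_pow]; linarith
  have hbc : IsCoprime b (-c) := by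
    refine isCoprime_of_prime_dvd ?_ ?_
    · rintro ⟨hb0, -⟩
      exact hpb (hb0 ▸ dvd_zero _)
    · intro r hr hrb hrc
      have hrc' : r ∣ c := dvd_neg.mp hrc
      have : r ∣ a ^ p := by
        have e : a ^ p = c ^ p - b ^ p := by linarith
        rw [e]
        exact dvd_sub (dvd_pow hrc' hp.ne_zero) (dvd_pow hrb hp.ne_zero)
      exact hr.not_isUnit (hab.isUnit_of_dvd' (hr.dvd_of_dvd_pow this) hrb)
  have hca : IsCoprime (-c) a := by
    refine isCoprime_of_prime_dvd ?_ ?_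
    · rintro ⟨-, ha0⟩
      exact hpa (ha0 ▸ dvd_zero _)
    · intro r hr hrc hra
      have hrc' : r ∣ c := dvd_neg.mp hrc
      have : r ∣ b ^ p := by
        have e : b ^ p = c ^ p - a ^ p := by linarith
        rw [e]
        exact dvd_sub (dvd_pow hrc' hp.ne_zero) (dvd_pow hra hp.ne_zero)
      exact hr.not_isUnit (hab.isUnit_of_dvd' hra (hr.dvd_of_dvd_pow this))
  have hmod : ((a : ℤ) : ZMod q) ^ p + ((b : ℤ) : ZMod q) ^ p + ((-c : ℤ) : ZMod q) ^ p = 0 := by
    have := congrArg (fun t : ℤ => (t : ZMod q)) h0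
    push_cast at this
    push_cast
    exact this
  rcases h1 _ _ _ hmod with ha | hb | hc
  · exact core hp hp2 hq h1 h2 a b (-c) hab hbc hca hpa hpb hpc h0 ha
  · exact core hp hp2 hq h1 h2 b (-c) a hbc hca hab hpb hpc hpa (by linarith) hb
  · exact core hp hp2 hq h1 h2 (-c) a b hca hab hbc hpc hpa hpb (by linarith) hc


lemma pow_five_mod : ∀ x : ZMod 11, x = 0 ∨ x ^ 5 = 1 ∨ x ^ 5 = 10 := by decide

lemma pow_seven_mod : ∀ x : ZMod 29, x = 0 ∨ x ^ 7 = 1 ∨ x ^ 7 = 12 ∨ x ^ 7 = 17 ∨ x ^ 7 = 28 := by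
  decide

lemma pow_eleven_mod : ∀ x : ZMod 23, x = 0 ∨ x ^ 11 = 1 ∨ x ^ 11 = 22 := by decide

lemma pow_thirteen_mod :
    ∀ x : ZMod 53, x = 0 ∨ x ^ 13 = 1 ∨ x ^ 13 = 23 ∨ x ^ 13 = 30 ∨ x ^ 13 = 52 := by
  decide

theorem caseI_five (a b c : ℤ) (hab : IsCoprime a b) (hp : ¬ ((5 : ℕ) : ℤ) ∣ a * b * c)
    (h : a ^ 5 + b ^ 5 = c ^ 5) : False := by
  refine caseI_of_aux (p := 5) (q := 11) (by norm_num) (by norm_num) (by norm_num) ?_ ?_
    a b c hab hp h
  · intro x y z hxyz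
    rcases pow_five_mod x with hx | hx | hx
    · exact Or.inl hx
    all_goals
      rcases pow_five_mod y with hy | hy | hy
      · exact Or.inr (Or.inl hy)
      all_goals
        rcases pow_five_mod z with hz | hz | hz
        · exact Or.inr (Or.inr hz)
        all_goals
          rw [hx, hy, hz] at hxyz
          exact absurd hxyz (by decide)
  · intro x hx
    rcases pow_five_mod x with h0 | h0 | h0
    · rw [h0] at hx; exact absurd hx (by decide)
    all_goals
      rw [h0] at hx; exact absurd hx (by decide)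

theorem caseI_seven (a b c : ℤ) (hab : IsCoprime a b) (hp : ¬ ((7 : ℕ) : ℤ) ∣ a * b * c)
    (h : a ^ 7 + b ^ 7 = c ^ 7) : False := by
  refine caseI_of_aux (p := 7) (q := 29) (by norm_num) (by norm_num) (by norm_num) ?_ ?_
    a b c hab hp h
  · intro x y z hxyz
    rcases pow_seven_mod x with hx | hx | hx | hx | hx
    · exact Or.inl hx
    all_goals
      rcases pow_seven_mod y with hy | hy | hy | hy | hy
      · exact Or.inr (Or.inl hy)
      all_goals
        rcases pow_seven_mod z with hz | hz | hz | hz | hz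
        · exact Or.inr (Or.inr hz)
        all_goals
          rw [hx, hy, hz] at hxyz
          exact absurd hxyz (by decide)
  · intro x hx
    rcases pow_seven_mod x with h0 | h0 | h0 | h0 | h0
    · rw [h0] at hx; exact absurd hx (by decide)
    all_goals
      rw [h0] at hx; exact absurd hx (by decide)

theorem caseI_eleven (a b c : ℤ) (hab : IsCoprime a b) (hp : ¬ ((11 : ℕ) : ℤ) ∣ a * b * c)
    (h : a ^ 11 + b ^ 11 = c ^ 11) : False := by
  refine caseI_of_aux (p := 11) (q := 23) (by norm_num) (by norm_num) (by norm_num) ?_ ?_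
    a b c hab hp h
  · intro x y z hxyz
    rcases pow_eleven_mod x with hx | hx | hx
    · exact Or.inl hx
    all_goals
      rcases pow_eleven_mod y with hy | hy | hy
      · exact Or.inr (Or.inl hy)
      all_goals
        rcases pow_eleven_mod z with hz | hz | hz
        · exact Or.inr (Or.inr hz)
        all_goals
          rw [hx, hy, hz] at hxyz
          exact absurd hxyz (by decide)
  · intro x hx
    rcases pow_eleven_mod x with h0 | h0 | h0
    · rw [h0] at hx; exact absurd hx (by decide)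
    all_goals
      rw [h0] at hx; exact absurd hx (by decide)

theorem caseI_thirteen (a b c : ℤ) (hab : IsCoprime a b) (hp : ¬ ((13 : ℕ) : ℤ) ∣ a * b * c)
    (h : a ^ 13 + b ^ 13 = c ^ 13) : False := by
  refine caseI_of_aux (p := 13) (q := 53) (by norm_num) (by norm_num) (by norm_num) ?_ ?_
    a b c hab hp h
  · intro x y z hxyz
    rcases pow_thirteen_mod x with hx | hx | hx | hx | hx
    · exact Or.inl hx
    all_goals
      rcases pow_thirteen_mod y with hy | hy | hy | hy | hy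
      · exact Or.inr (Or.inl hy)
      all_goals
        rcases pow_thirteen_mod z with hz | hz | hz | hz | hz
        · exact Or.inr (Or.inr hz)
        all_goals
          rw [hx, hy, hz] at hxyz
          exact absurd hxyz (by decide)
  · intro x hx
    rcases pow_thirteen_mod x with h0 | h0 | h0 | h0 | h0
    · rw [h0] at hx; exact absurd hx (by decide)
    all_goals
      rw [h0] at hx; exact absurd hx (by decide)

end Fermat.Agent.S10.V.SophieGermain
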